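import Fermat.Agent.S59.TW.H564.LocActCore
import Fermat.Agent.S59.H765.TraceClosed

/-!
# S59 / HARD, cell TW, layer 3 (AUT), leaf CMP, part (T), BETTI side: abstract lemmas (helper434)

Mathlib + `H564.LocActCore` (`redEnd`) + `H765.TraceClosed`.

* `exists_algHom_of_injective_h434` : transport of an algebra action along an injective linear map
  `ι : U → V` whose image is stable (`∀ s, ∃ g, ι ∘ g = a s ∘ ι`);
* `isNilpotent_redEnd_of_mem_maximalIdeal_h434` : a local `𝒪`-algebra `T`, finite over `𝒪`, acts on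
  every `𝒪`-module `U` with `𝔪_T` nilpotent modulo `𝔪_𝒪`;
* `exists_sub_eq_of_norm_eq_zero_h434` : for a module `V` with an "`𝒪[C_n]`-basis"
  `X^k B_{i}`, `k < n`, `X^n = 1`: `(1 + X + ⋯ + X^{n-1}) y = 0 → y ∈ (X - 1) V`.
-/

set_option autoImplicit false
set_option linter.unusedSectionVars false
set_option linter.style.haveILetI false

noncomputable section

namespace Fermat.Agent.S59.TW.Aut.H434

open IsLocalRing

/-! ## Transport of an action along an injective map -/

section Transport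

variable {𝒪 : Type*} [CommRing 𝒪] {T : Type*} [CommRing T] [Algebra 𝒪 T]
  {U V : Type*} [AddCommGroup U] [Module 𝒪 U] [AddCommMonoid V] [Module 𝒪 V]

/-- If the image of the injective map `ι : U → V` is stable under the action `a` of `T` on `V`
(in the form: every `a s` is induced by an endomorphism of `U`), then `T` acts on `U`. -/
theorem exists_algHom_of_injective_h434 (a : T →ₐ[𝒪] Module.End 𝒪 V) (ι : U →ₗ[𝒪] V)
    (hι : Function.Injective ι)
    (hex : ∀ s : T, ∃ g : Module.End 𝒪 U, ∀ z : U, ι (g z) = a s (ι z)) :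
    ∃ aU : T →ₐ[𝒪] Module.End 𝒪 U, ∀ (s : T) (z : U), ι (aU s z) = a s (ι z) := by
  choose g hg using hex
  have huniq : ∀ (f f' : Module.End 𝒪 U), (∀ z, ι (f z) = ι (f' z)) → f = f' := by
    intro f f' h
    exact LinearMap.ext fun z => hι (h z)
  refine ⟨{ toFun := g
            map_one' := ?_
            map_mul' := ?_
            map_zero' := ?_
            map_add' := ?_
            commutes' := ?_ }, fun s z => hg s z⟩
  · apply huniq
    intro z
    rw [hg, map_one, Module.End.one_apply, Module.End.one_apply]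
  · intro x y
    apply huniq
    intro z
    rw [hg, map_mul, Module.End.mul_apply, Module.End.mul_apply, hg, hg]
  · apply huniq
    intro z
    rw [hg, map_zero, LinearMap.zero_apply, LinearMap.zero_apply, map_zero]
  · intro x y
    apply huniq
    intro z
    rw [hg, map_add, LinearMap.add_apply, LinearMap.add_apply, map_add, hg, hg]
  · intro c
    apply huniq
    intro z
    rw [hg, AlgHom.commutes, Module.algebraMap_end_apply, Module.algebraMap_end_apply, map_smul]

end Transport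

/-! ## The maximal ideal of a finite local algebra acts nilpotently modulo `𝔪_𝒪` -/

section Nil

variable {𝒪 : Type*} [CommRing 𝒪] [IsLocalRing 𝒪] [IsNoetherianRing 𝒪]
  {T : Type*} [CommRing T] [IsLocalRing T] [Algebra 𝒪 T] [Module.Finite 𝒪 T]
  {U : Type*} [AddCommGroup U] [Module 𝒪 U]

/-- An element of `𝔪_𝒪 T` maps `U` into `𝔪_𝒪 U`. -/
theorem apply_mem_mSub_of_mem_map_h434 (a : T →ₐ[𝒪] Module.End 𝒪 U) {x : T}
    (hx : x ∈ (maximalIdeal 𝒪).map (algebraMap 𝒪 T)) (u : U) :
    a x u ∈ H564.mSub 𝒪 U := by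
  have hx' : x ∈ Submodule.span T ((algebraMap 𝒪 T) '' (maximalIdeal 𝒪 : Set 𝒪)) := hx
  revert u
  refine Submodule.span_induction
    (p := fun x _ => ∀ u : U, a x u ∈ H564.mSub 𝒪 U) ?_ ?_ ?_ ?_ hx'
  · rintro y ⟨c, hc, rfl⟩ u
    rw [AlgHom.commutes, Module.algebraMap_end_apply]
    exact Submodule.smul_mem_smul hc Submodule.mem_top
  · intro u
    simp
  · intro y z _ _ hy hz u
    rw [map_add, LinearMap.add_apply]
    exact Submodule.add_mem _ (hy u) (hz u)
  · intro s y _ hy u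
    rw [smul_eq_mul, map_mul, Module.End.mul_apply]
    exact Fermat.Agent.S59.H765.map_mem_smul_top (maximalIdeal 𝒪) (a s) (hy u)

/-- The maximal ideal of `T` acts nilpotently on `U / 𝔪_𝒪 U`. -/
theorem isNilpotent_redEnd_of_mem_maximalIdeal_h434 (a : T →ₐ[𝒪] Module.End 𝒪 U) {x : T}
    (hx : x ∈ maximalIdeal T) : IsNilpotent (H564.redEnd 𝒪 U (a x)) := by
  obtain ⟨e, he⟩ := Fermat.Agent.S59.H765.exists_maximalIdeal_pow_le_map765 (𝒪 := 𝒪) (T := T)
  rw [H564.isNilpotent_redEnd_iff]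
  refine ⟨e, fun u => ?_⟩
  rw [← map_pow]
  exact apply_mem_mSub_of_mem_map_h434 a (he (Ideal.pow_mem_pow hx e)) u

/-- The same, in the shape of `H564.GenNil`. -/
theorem isNilpotent_redEnd_sub_algebraMap_h434 (a : T →ₐ[𝒪] Module.End 𝒪 U) {x : T} {c : 𝒪}
    (hx : x - algebraMap 𝒪 T c ∈ maximalIdeal T) {f : Module.End 𝒪 U} (hf : a x = f) :
    IsNilpotent (H564.redEnd 𝒪 U (f - algebraMap 𝒪 (Module.End 𝒪 U) c)) := by
  have key := isNilpotent_redEnd_of_mem_maximalIdeal_h434 a hx
  rw [map_sub, AlgHom.commutes, hf] at key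
  exact key

end Nil

/-! ## The kernel of the norm of a cyclic group on a free module -/

section NormKer

variable {𝒪 : Type*} [CommRing 𝒪] {Xm : Type*} [AddCommGroup Xm] [Module 𝒪 Xm]

theorem geomSum_mul_pow_h434 (X : Module.End 𝒪 Xm) (n : ℕ) (hX : X ^ n = 1) (k : ℕ) :
    (∑ l ∈ Finset.range n, X ^ l) * X ^ k = ∑ l ∈ Finset.range n, X ^ l := by
  have h1 : (∑ l ∈ Finset.range n, X ^ l) * X = ∑ l ∈ Finset.range n, X ^ l := by
    have h2 : (∑ l ∈ Finset.range n, X ^ l) * X + 1 = (∑ l ∈ Finset.range n, X ^ l) + 1 := by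
      rw [Finset.sum_mul]
      have h3 : ∑ l ∈ Finset.range n, X ^ l * X = ∑ l ∈ Finset.range n, X ^ (l + 1) :=
        Finset.sum_congr rfl fun l _ => (pow_succ X l).symm
      rw [h3]
      have h4 := Finset.sum_range_succ' (fun l => X ^ l) n
      have h5 := Finset.sum_range_succ (fun l => X ^ l) n
      rw [pow_zero] at h4
      rw [← h4, h5, hX]
    exact add_right_cancel h2
  induction k with
  | zero => rw [pow_zero, mul_one]
  | succ k ih => rw [pow_succ, ← mul_assoc, ih, h1]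

theorem pow_apply_mem_h434 (X : Module.End 𝒪 Xm) (V : Submodule 𝒪 Xm)
    (hXV : ∀ v ∈ V, X v ∈ V) (k : ℕ) {v : Xm} (hv : v ∈ V) : (X ^ k) v ∈ V := by
  induction k with
  | zero => simpa using hv
  | succ k ih =>
    rw [pow_succ', Module.End.mul_apply]
    exact hXV _ ih

/-- **`ker N = (X - 1) V`** for the norm `N = 1 + X + ⋯ + X^{n-1}` of a cyclic group of order `n`
acting on a module `V` with a basis of the form `X^k D₀(e₀) b_i`. -/
theorem exists_sub_eq_of_norm_eq_zero_h434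
    (X : Module.End 𝒪 Xm) (n : ℕ) (hX : X ^ n = 1)
    {ι E E₀ : Type*} [Fintype ι] [Fintype E] [Fintype E₀] (φ : E ≃ Fin n × E₀)
    (D : E → Module.End 𝒪 Xm) (D₀ : E₀ → Module.End 𝒪 Xm)
    (hD : ∀ e, D e = X ^ ((φ e).1 : ℕ) * D₀ (φ e).2)
    (V : Submodule 𝒪 Xm) (hXV : ∀ v ∈ V, X v ∈ V) (b : ι → Xm)
    (hbV : ∀ i e₀, D₀ e₀ (b i) ∈ V)
    (hb : ∀ y ∈ V, ∃! c : ι → E → 𝒪, y = ∑ i, ∑ e, c i e • D e (b i))
    {y : Xm} (hy : y ∈ V) (hN : (∑ k ∈ Finset.range n, X ^ k) y = 0) :
    ∃ y' ∈ V, y = X y' - y' := by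
  classical
  set N : Module.End 𝒪 Xm := ∑ k ∈ Finset.range n, X ^ k with hNdef
  have hNX := geomSum_mul_pow_h434 X n hX
  -- reindexing of the combinations
  have hre : ∀ c : ι → E → 𝒪, ∑ i, ∑ e, c i e • D e (b i) =
      ∑ i, ∑ e₀, ∑ k : Fin n, c i (φ.symm (k, e₀)) • (X ^ (k : ℕ)) (D₀ e₀ (b i)) := by
    intro c
    refine Finset.sum_congr rfl fun i _ => ?_
    rw [← Equiv.sum_comp φ.symm (fun e => c i e • D e (b i)), Fintype.sum_prod_type,
      Finset.sum_comm]
    refine Finset.sum_congr rfl fun e₀ _ => Finset.sum_congr rfl fun k _ => ?_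
    rw [hD, Equiv.apply_symm_apply, Module.End.mul_apply]
  obtain ⟨c, hc, -⟩ := hb y hy
  set C : ι → E₀ → 𝒪 := fun i e₀ => ∑ k : Fin n, c i (φ.symm (k, e₀)) with hCdef
  -- the norm of `y`
  have hNy : N y = ∑ i, ∑ e, C i (φ e).2 • D e (b i) := by
    rw [hre (fun i e => C i (φ e).2)]
    conv_lhs => rw [hc, hre c]
    simp only [map_sum, map_smul]
    refine Finset.sum_congr rfl fun i _ => Finset.sum_congr rfl fun e₀ _ => ?_
    have h1 : ∀ k : Fin n, c i (φ.symm (k, e₀)) • N ((X ^ (k : ℕ)) (D₀ e₀ (b i))) =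
        c i (φ.symm (k, e₀)) • N (D₀ e₀ (b i)) := by
      intro k
      rw [← Module.End.mul_apply, hNX]
    rw [Finset.sum_congr rfl fun k _ => h1 k, ← Finset.sum_smul]
    simp only [Equiv.apply_symm_apply]
    rw [← Finset.smul_sum]
    congr 1
    rw [hNdef, LinearMap.sum_apply, Finset.sum_range]
  -- the sums of the coefficients vanish
  have hC : ∀ i e₀, C i e₀ = 0 := by
    intro i e₀
    rcases Nat.eq_zero_or_pos n with hn | hn
    · subst hn
      rw [hCdef]
      exact Finset.sum_of_isEmpty _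
    · obtain ⟨c0, -, hc0⟩ := hb 0 V.zero_mem
      have e1 : (fun i e => C i (φ e).2) = c0 := by
        apply hc0
        show (0 : Xm) = ∑ i, ∑ e, C i (φ e).2 • D e (b i)
        rw [← hNy, hN]
      have e2 : (fun (_ : ι) (_ : E) => (0 : 𝒪)) = c0 := by
        apply hc0
        show (0 : Xm) = ∑ i : ι, ∑ e : E, (0 : 𝒪) • D e (b i)
        simp
      have := congrFun (congrFun (e1.trans e2.symm) i) (φ.symm (⟨0, hn⟩, e₀))
      simpa using this
  -- the element `y'`
  refine ⟨∑ i, ∑ e₀, ∑ k : Fin n, c i (φ.symm (k, e₀)) •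
    (∑ l ∈ Finset.range (k : ℕ), X ^ l) (D₀ e₀ (b i)), ?_, ?_⟩
  · refine V.sum_mem fun i _ => V.sum_mem fun e₀ _ => V.sum_mem fun k _ => V.smul_mem _ ?_
    rw [LinearMap.sum_apply]
    exact V.sum_mem fun l _ => pow_apply_mem_h434 X V hXV l (hbV i e₀)
  · have h2 : ∀ (k : ℕ) (w : Xm),
        X ((∑ l ∈ Finset.range k, X ^ l) w) - (∑ l ∈ Finset.range k, X ^ l) w =
          (X ^ k) w - w := by
      intro k w
      have := congrArg (fun f : Module.End 𝒪 Xm => f w) (mul_geom_sum X k)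
      simpa [sub_mul, Module.End.mul_apply] using this
    conv_lhs => rw [hc, hre c]
    simp only [map_sum, map_smul, ← Finset.sum_sub_distrib, ← smul_sub, h2]
    simp only [smul_sub, Finset.sum_sub_distrib]
    have h3 : ∑ i, ∑ e₀, ∑ k : Fin n, c i (φ.symm (k, e₀)) • D₀ e₀ (b i) = 0 := by
      refine Finset.sum_eq_zero fun i _ => Finset.sum_eq_zero fun e₀ _ => ?_
      rw [← Finset.sum_smul]
      have := hC i e₀
      rw [hCdef] at this
      simp only at this
      rw [this, zero_smul]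
    rw [h3, sub_zero]

end NormKer

end Fermat.Agent.S59.TW.Aut.H434
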