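import Fermat.Agent.S59.TW.Aut.H434.TBettiNorm
import Fermat.Agent.S59.TW.H658.ModQRing
import Fermat.Agent.S59.TW.H564.LocAct
import Fermat.Agent.S59.TW.H324.CuspLoc
import Fermat.Agent.S59.TW.H653.Cusp
import Fermat.Agent.S59.TW.Aut.H434.TBettiAlgCore

/-!
# S59 / HARD, cell TW, layer 3 (AUT), leaf CMP, part (T), BETTI side, piece 2 (helper434)

The Hecke algebra of the level `N' = M_Q · ∏_{i ≠ j} q_i = N₀ q_j ∏_{i ≠ j} q_i²` (`q_j ∥ N'`)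
acts on the classes of `K' = Γ₀(M_Q) ∩ Γ_H(Q ∖ q_j)` through the `⟨ℓ⟩^h T_ℓ`
(`H658.exists_heckeAction_sub_of_odd` at `K'`).

* `qsAway_h434`, `levelAway_h434` : the list `(q_i)_{i ≠ j}` and the level `N'`;
* `exists_heckeAction_KAway_h434` : the ring homomorphism
  `heckeAlgebra N' 2 (Smin ∪ Q) →+* End_𝒪 U` for `U ⊆ X_{K'}(𝒪)` parabolic and stable.
-/

set_option autoImplicit false
set_option linter.unusedSectionVars false
set_option linter.style.haveILetI false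

noncomputable section

namespace Fermat.Agent.S59.TW.Aut.H434

open CongruenceSubgroup ModularCurve.Period
open Fermat.Agent.S59.Arch Fermat.Agent.S59.TW.H653 Fermat.Agent.S59.TW.Aut
open Fermat.Agent.S59.TW.H658
open scoped MatrixGroups

/-! ## The list `(q_i)_{i ≠ j}` and the level `N'` -/

section Lists

variable {r : ℕ} (qv : Fin r → ℕ) (j : Fin r)

/-- The list of the Taylor–Wiles primes other than `q_j`. -/
def qsAway_h434 : List ℕ := ((List.finRange r).filter (fun i => decide (i ≠ j))).map qv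

theorem mem_qsAway_h434 {q : ℕ} : q ∈ qsAway_h434 qv j ↔ ∃ i, i ≠ j ∧ qv i = q := by
  unfold qsAway_h434
  simp only [List.mem_map, List.mem_filter, List.mem_finRange, true_and, decide_eq_true_eq]

theorem nodup_qsAway_h434 (hinj : Function.Injective qv) : (qsAway_h434 qv j).Nodup :=
  List.Nodup.map hinj (List.Nodup.filter _ (List.nodup_finRange r))

theorem dvd_prod_qsAway_h434 {i : Fin r} (hi : i ≠ j) : qv i ∣ (qsAway_h434 qv j).prod :=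
  List.dvd_prod ((mem_qsAway_h434 qv j).mpr ⟨i, hi, rfl⟩)

theorem prod_qsAway_ne_zero_h434 (hprime : ∀ i, (qv i).Prime) : (qsAway_h434 qv j).prod ≠ 0 := by
  rw [Ne, List.prod_eq_zero_iff]
  intro h
  obtain ⟨i, -, hi⟩ := (mem_qsAway_h434 qv j).mp h
  exact (hprime i).ne_zero hi

theorem prime_dvd_prod_qsAway_h434 (hprime : ∀ i, (qv i).Prime) {q : ℕ} (hq : q.Prime)
    (hd : q ∣ (qsAway_h434 qv j).prod) : ∃ i, i ≠ j ∧ qv i = q := by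
  obtain ⟨a, ha, hqa⟩ := (Prime.dvd_prod_iff hq.prime).mp hd
  obtain ⟨i, hi, rfl⟩ := (mem_qsAway_h434 qv j).mp ha
  exact ⟨i, hi, ((Nat.prime_dvd_prime_iff_eq hq (hprime i)).mp hqa).symm⟩

/-- The level `N' = M_Q · ∏_{i ≠ j} q_i`. -/
def levelAway_h434 (N₀ : ℕ) : ℕ := bLevel N₀ qv * (qsAway_h434 qv j).prod

theorem bLevel_dvd_levelAway_h434 (N₀ : ℕ) : bLevel N₀ qv ∣ levelAway_h434 qv j N₀ :=
  Dvd.intro _ rfl

theorem levelAway_ne_zero_h434 {N₀ : ℕ} (hN₀ : N₀ ≠ 0) (hprime : ∀ i, (qv i).Prime) :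
    levelAway_h434 qv j N₀ ≠ 0 :=
  Nat.mul_ne_zero
    (Nat.mul_ne_zero hN₀ (Finset.prod_ne_zero_iff.mpr fun i _ => (hprime i).ne_zero))
    (prod_qsAway_ne_zero_h434 qv j hprime)

end Lists

/-! ## The group `K'` -/

section Group

variable (p N₀ : ℕ) {r : ℕ} (qv : Fin r → ℕ) (j : Fin r)

/-- `Γ₀(M_Q) ∩ Γ₁(∏_{i ≠ j} q_i) ⊆ K'`. -/
theorem mem_KAway_of_dvd_h434 {γ : SL(2, ℤ)} (hγ : γ ∈ Gamma0 (bLevel N₀ qv))
    (h : (((qsAway_h434 qv j).prod : ℕ) : ℤ) ∣ γ 1 1 - 1) : γ ∈ KAway_h434 p N₀ qv j := by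
  rw [mem_KAway_h434]
  refine ⟨hγ, fun i hi => ⟨1, ?_⟩⟩
  rw [one_pow]
  symm
  apply Units.ext
  rw [red_apply]
  show ZMod.castHom (dvd_bLevel N₀ qv i) (ZMod (qv i))
    ((dUnit (bLevel N₀ qv) ⟨γ, hγ⟩ : (ZMod (bLevel N₀ qv))ˣ) : ZMod (bLevel N₀ qv)) = 1
  rw [coe_dUnit, map_intCast]
  have h2 : ((qv i : ℕ) : ℤ) ∣ γ 1 1 - 1 :=
    dvd_trans (Int.natCast_dvd_natCast.mpr (dvd_prod_qsAway_h434 qv j hi)) h
  have h3 := (ZMod.intCast_zmod_eq_zero_iff_dvd _ _).mpr h2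
  push_cast at h3
  exact sub_eq_zero.mp h3

theorem pow_mem_KAway_h434 {h : ℕ} (hh : IsHalf p qv h) {γ : SL(2, ℤ)}
    (hγ : γ ∈ Gamma0 (bLevel N₀ qv)) : γ ^ (2 * h + 1) ∈ KAway_h434 p N₀ qv j :=
  KQ_le_KAway_h434 p N₀ qv j (pow_mem_KQ p N₀ qv hh hγ)

end Group

/-! ## The ring homomorphism at the level `K'` -/

section Action

variable (p : ℕ) [Fact p.Prime] (t : PType) (Smin : Finset ℕ) {r : ℕ} (qv : Fin r → ℕ)
  (j : Fin r)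

/-- The primes dividing `N'` lie in `Smin ∪ Q`. -/
theorem mem_of_dvd_levelAway_h434 (hpS : p ∈ Smin) (hSp : ∀ q ∈ Smin, q.Prime)
    (hq : ∀ i, (qv i).Prime ∧ qv i ∉ Smin) {q : ℕ} (hqp : q.Prime)
    (hdvd : q ∣ levelAway_h434 qv j (wilesLevel p t Smin Smin)) :
    q ∈ ((Smin ∪ Finset.univ.image qv : Finset ℕ) : Set ℕ) := by
  rw [Finset.mem_coe, Finset.mem_union]
  unfold levelAway_h434 bLevel at hdvd
  rcases (Nat.Prime.dvd_mul hqp).mp hdvd with h | h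
  · rcases (Nat.Prime.dvd_mul hqp).mp h with h | h
    · exact Or.inl (mem_of_dvd_wilesLevel p t Smin hpS hSp hqp h)
    · obtain ⟨i, -, hi⟩ := (Prime.dvd_finsetProd_iff hqp.prime _).mp h
      rw [(Nat.prime_dvd_prime_iff_eq hqp (hq i).1).mp hi]
      exact Or.inr (Finset.mem_image.mpr ⟨i, Finset.mem_univ _, rfl⟩)
  · obtain ⟨i, -, rfl⟩ := prime_dvd_prod_qsAway_h434 qv j (fun i => (hq i).1) hqp h
    exact Or.inr (Finset.mem_image.mpr ⟨i, Finset.mem_univ _, rfl⟩)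

/-- **The Hecke algebra of level `N'` acts on the classes of `K'`** through the `⟨ℓ⟩^h T_ℓ`. -/
theorem exists_heckeAction_KAway_h434 (hpS : p ∈ Smin) (hSp : ∀ q ∈ Smin, q.Prime)
    (hqi : Function.Injective qv) (hq : ∀ i, (qv i).Prime ∧ qv i ∉ Smin)
    [NeZero (levelAway_h434 qv j (wilesLevel p t Smin Smin))]
    {h : ℕ} (hh : IsHalf p qv h)
    (𝒪 : Type) [CommRing 𝒪] [Module.IsTorsionFree ℤ 𝒪]
    (U : Submodule 𝒪 (Additive (KAway_h434 p (wilesLevel p t Smin Smin) qv j) →+ 𝒪))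
    (hpar : ∀ v ∈ U, IsParabolicHom (KAway_h434 p (wilesLevel p t Smin Smin) qv j) v)
    (hst : ∀ (ℓ : ℕ) (hℓ : ℓ.Prime),
      ¬ ℓ ∣ levelAway_h434 qv j (wilesLevel p t Smin Smin) →
      ℓ ∉ ((Smin ∪ Finset.univ.image qv : Finset ℕ) : Set ℕ) → ∀ v ∈ U,
        tOpTw (isMid_KAway_h434 p (wilesLevel p t Smin Smin) qv j) 𝒪 h ℓ hℓ v ∈ U) :
    ∃ Ψ : CuspForm.heckeAlgebra (levelAway_h434 qv j (wilesLevel p t Smin Smin)) 2
        ((Smin ∪ Finset.univ.image qv : Finset ℕ) : Set ℕ) →+* Module.End 𝒪 U,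
      ∀ (ℓ : ℕ) (hℓ : ℓ.Prime)
        (hℓN : ¬ ℓ ∣ levelAway_h434 qv j (wilesLevel p t Smin Smin))
        (hℓS : ℓ ∉ ((Smin ∪ Finset.univ.image qv : Finset ℕ) : Set ℕ)) (v : U),
        ((Ψ (CuspForm.heckeAlgebra.T hℓ hℓN hℓS) v : U) :
          Additive (KAway_h434 p (wilesLevel p t Smin Smin) qv j) →+ 𝒪) =
          tOpTw (isMid_KAway_h434 p (wilesLevel p t Smin Smin) qv j) 𝒪 h ℓ hℓ v := by
  haveI : NeZero (bLevel (wilesLevel p t Smin Smin) qv) :=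
    ⟨bLevel_ne_zero p t Smin qv hSp fun i => (hq i).1⟩
  haveI : (KAway_h434 p (wilesLevel p t Smin Smin) qv j).FiniteIndex :=
    H564.finiteIndex_of_Gamma1_le (isMid_KAway_h434 p (wilesLevel p t Smin Smin) qv j).ge
  obtain ⟨Ψ, hΨ⟩ := exists_heckeAction_sub_of_odd (R := 𝒪)
    (isMid_KAway_h434 p (wilesLevel p t Smin Smin) qv j) (qsAway_h434 qv j)
    (nodup_qsAway_h434 qv j hqi)
    (fun q hq' => by
      obtain ⟨i, -, rfl⟩ := (mem_qsAway_h434 qv j).mp hq'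
      exact ⟨(hq i).1, exists_bLevel_eq p t Smin qv hpS hSp hqi hq i⟩)
    (fun γ hγ hd => mem_KAway_of_dvd_h434 p _ qv j hγ hd) h
    (fun γ hγ => pow_mem_KAway_h434 p _ qv j hh hγ)
    (N' := levelAway_h434 qv j (wilesLevel p t Smin Smin)) (dvd_refl _)
    ((Smin ∪ Finset.univ.image qv : Finset ℕ) : Set ℕ)
    (fun q hqp hqd => mem_of_dvd_levelAway_h434 p t Smin qv j hpS hSp hq hqp hqd)
    U hpar
    (fun ℓ _ hℓN hℓS v hv => hst ℓ Fact.out hℓN hℓS v hv)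
  refine ⟨Ψ, fun ℓ hℓ hℓN hℓS v => ?_⟩
  haveI : Fact ℓ.Prime := ⟨hℓ⟩
  exact hΨ ℓ hℓN hℓS v

end Action

/-! ## The classes of `K'` whose restriction lies in `V` -/

section Comap

variable (p N₀ : ℕ) {r : ℕ} (qv : Fin r → ℕ) (j : Fin r) (𝒪 : Type) [CommRing 𝒪]

/-- Restriction `X_{K'}(𝒪) → X_{K_Q}(𝒪)`, `𝒪`-linear. -/
def resLin_h434 :
    (Additive (KAway_h434 p N₀ qv j) →+ 𝒪) →ₗ[𝒪] (Additive (KQ p N₀ qv) →+ 𝒪) where
  toFun := resK (KQ_le_KAway_h434 p N₀ qv j)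
  map_add' _ _ := rfl
  map_smul' _ _ := rfl

@[simp] theorem resLin_h434_apply (z : Additive (KAway_h434 p N₀ qv j) →+ 𝒪) :
    resLin_h434 p N₀ qv j 𝒪 z = resK (KQ_le_KAway_h434 p N₀ qv j) z := rfl

variable {p N₀ qv 𝒪}

/-- `U = {z ∈ X_{K'}(𝒪) | res z ∈ V}`. -/
def UAway_h434 (V : Submodule 𝒪 (Additive (KQ p N₀ qv) →+ 𝒪)) (j : Fin r) :
    Submodule 𝒪 (Additive (KAway_h434 p N₀ qv j) →+ 𝒪) :=
  V.comap (resLin_h434 p N₀ qv j 𝒪)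

theorem mem_UAway_h434 {V : Submodule 𝒪 (Additive (KQ p N₀ qv) →+ 𝒪)} {j : Fin r}
    {z : Additive (KAway_h434 p N₀ qv j) →+ 𝒪} :
    z ∈ UAway_h434 V j ↔ resK (KQ_le_KAway_h434 p N₀ qv j) z ∈ V := Iff.rfl

/-- The restriction map `U → V`. -/
def resUV_h434 (V : Submodule 𝒪 (Additive (KQ p N₀ qv) →+ 𝒪)) (j : Fin r) :
    UAway_h434 V j →ₗ[𝒪] V where
  toFun z := ⟨resK (KQ_le_KAway_h434 p N₀ qv j) z, z.2⟩
  map_add' _ _ := rfl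
  map_smul' _ _ := rfl

@[simp] theorem coe_resUV_h434 (V : Submodule 𝒪 (Additive (KQ p N₀ qv) →+ 𝒪)) (j : Fin r)
    (z : UAway_h434 V j) :
    ((resUV_h434 V j z : V) : Additive (KQ p N₀ qv) →+ 𝒪) =
      resK (KQ_le_KAway_h434 p N₀ qv j) (z : Additive (KAway_h434 p N₀ qv j) →+ 𝒪) := rfl

theorem resUV_injective_h434 [IsDomain 𝒪] [CharZero 𝒪] (hp : p ≠ 0)
    (V : Submodule 𝒪 (Additive (KQ p N₀ qv) →+ 𝒪)) (j : Fin r) :
    Function.Injective (resUV_h434 V j) := by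
  rw [injective_iff_map_eq_zero]
  intro z hz
  apply Subtype.ext
  refine resK_injective_h434 p N₀ qv j hp ?_ _ (congrArg Subtype.val hz)
  intro n a hn h
  rw [nsmul_eq_mul] at h
  rcases mul_eq_zero.mp h with h1 | h1
  · exact absurd (Nat.cast_eq_zero.mp h1) hn
  · exact h1

/-- The classes of `U` are parabolic if those of `V` are. -/
theorem isParabolicHom_of_mem_UAway_h434 [IsDomain 𝒪] [CharZero 𝒪] (hp : p ≠ 0)
    {V : Submodule 𝒪 (Additive (KQ p N₀ qv) →+ 𝒪)}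
    (hpar : ∀ v ∈ V, IsParabolicHom (KQ p N₀ qv) v) {j : Fin r}
    {z : Additive (KAway_h434 p N₀ qv j) →+ 𝒪} (hz : z ∈ UAway_h434 V j) :
    IsParabolicHom (KAway_h434 p N₀ qv j) z := by
  intro γ hγ
  have h1 := hpar _ hz ⟨(γ : SL(2, ℤ)) ^ (p ^ padicValNat p (qv j - 1)),
    pow_mem_KQ_of_mem_KAway_h434 p N₀ qv j γ.2⟩ (by
      show (((γ : SL(2, ℤ)) ^ (p ^ padicValNat p (qv j - 1)) : SL(2, ℤ)) :
        Matrix (Fin 2) (Fin 2) ℤ).trace ^ 2 = 4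
      rw [Matrix.SpecialLinearGroup.coe_pow]
      exact Fermat.Agent.S41.H581.trace_pow_sq_eq_four _ (γ : SL(2, ℤ)).det_coe hγ _)
  rw [resLin_h434_apply, resK_apply] at h1
  have h2 : (Subgroup.inclusion (KQ_le_KAway_h434 p N₀ qv j)
      ⟨(γ : SL(2, ℤ)) ^ (p ^ padicValNat p (qv j - 1)),
        pow_mem_KQ_of_mem_KAway_h434 p N₀ qv j γ.2⟩ : KAway_h434 p N₀ qv j) =
      γ ^ (p ^ padicValNat p (qv j - 1)) := rfl
  rw [h2, ofMul_pow, map_nsmul, nsmul_eq_mul] at h1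
  rcases mul_eq_zero.mp h1 with h3 | h3
  · exact absurd (Nat.cast_eq_zero.mp h3) (pow_ne_zero _ hp)
  · exact h3

/-- Restriction commutes with the `⟨ℓ⟩^h T_ℓ`. -/
theorem resK_tOpTw_h434 [NeZero (bLevel N₀ qv)] (j : Fin r) (h ℓ : ℕ) (hℓ : ℓ.Prime)
    (hℓM : ¬ ℓ ∣ bLevel N₀ qv) (z : Additive (KAway_h434 p N₀ qv j) →+ 𝒪) :
    resK (KQ_le_KAway_h434 p N₀ qv j) (tOpTw (isMid_KAway_h434 p N₀ qv j) 𝒪 h ℓ hℓ z) =
      tOpTw (isMid_KQ p N₀ qv) 𝒪 h ℓ hℓ (resK (KQ_le_KAway_h434 p N₀ qv j) z) := by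
  haveI : Fact ℓ.Prime := ⟨hℓ⟩
  unfold tOpTw tOp
  have h1 := resK_TK (A := 𝒪) (isMid_KAway_h434 p N₀ qv j) (isMid_KQ p N₀ qv)
    (KQ_le_KAway_h434 p N₀ qv j) hℓM z
  rw [h1]
  rfl

end Comap

/-! ## The two actions on `U` -/

section Main

open IsLocalRing Fermat.Agent.S59.TW.H959

variable {p : ℕ} [hpF : Fact p.Prime]
  {𝒪 : Type} [CommRing 𝒪] [IsDomain 𝒪] [IsDiscreteValuationRing 𝒪]
  [IsAdicComplete (maximalIdeal 𝒪) 𝒪] [CharZero 𝒪]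
  {ρbar : ResidualGaloisRep (ResidueField 𝒪)} {t : PType} {Smin : Finset ℕ}
  {r : ℕ} {qv : Fin r → ℕ}
  [NeZero (wilesLevel p t Smin (Smin ∪ Finset.univ.image qv))]

/-- **The two actions on `U`.**  `T_Q` (through `a`, by restriction) and the Hecke ring
`heckeLocal N' (Smin ∪ Q) 𝒪 θ'` of the level `N'` (`q_j ∥ N'`) both act on
`U = {z ∈ X_{K'}(𝒪) | res z ∈ V}`, and the `T_ℓ` act in the same way. -/
theorem exists_actions_h434 (hpS : p ∈ Smin) (hSp : ∀ q ∈ Smin, q.Prime)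
    (hqi : Function.Injective qv) (hq : ∀ i, (qv i).Prime ∧ qv i ∉ Smin)
    (PQ : HeckePkg p 𝒪 ρbar t Smin (Smin ∪ Finset.univ.image qv))
    (V : Submodule 𝒪 (XQ p t Smin qv 𝒪)) {h : ℕ} (hh : IsHalf p qv h)
    (a : PQ.T →ₐ[𝒪] Module.End 𝒪 V) (ha : IsQAction PQ V h a)
    (hpar : ∀ v ∈ V, IsParabolicHom (KQ p (wilesLevel p t Smin Smin) qv) v)
    (hst : ∀ (ℓ : ℕ) (hℓ : ℓ.Prime), ¬ ℓ ∣ bLevel (wilesLevel p t Smin Smin) qv → ∀ v ∈ V,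
      tOpTw (isMid_KQ p (wilesLevel p t Smin Smin) qv) 𝒪 h ℓ hℓ v ∈ V)
    (j : Fin r)
    [NeZero (levelAway_h434 qv j (wilesLevel p t Smin Smin))]
    [Fact (CuspForm.HasIntegralStructure (levelAway_h434 qv j (wilesLevel p t Smin Smin)) 2)]
    (θ' : CuspForm.heckeAlgebra (levelAway_h434 qv j (wilesLevel p t Smin Smin)) 2
      ((Smin ∪ Finset.univ.image qv : Finset ℕ) : Set ℕ) →+* ResidueField 𝒪)
    (hθ' : ∀ (ℓ : ℕ) (hℓ : ℓ.Prime)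
      (hℓN' : ¬ ℓ ∣ levelAway_h434 qv j (wilesLevel p t Smin Smin))
      (hℓN : ¬ ℓ ∣ wilesLevel p t Smin (Smin ∪ Finset.univ.image qv))
      (hℓS : ℓ ∉ ((Smin ∪ Finset.univ.image qv : Finset ℕ) : Set ℕ)),
      θ' (CuspForm.heckeAlgebra.T hℓ hℓN' hℓS) = PQ.θ (CuspForm.heckeAlgebra.T hℓ hℓN hℓS)) :
    ∃ (aU : PQ.T →ₐ[𝒪] Module.End 𝒪 (UAway_h434 V j))
      (a' : CuspForm.heckeLocal (levelAway_h434 qv j (wilesLevel p t Smin Smin))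
        ((Smin ∪ Finset.univ.image qv : Finset ℕ) : Set ℕ) 𝒪 θ' →ₐ[𝒪]
          Module.End 𝒪 (UAway_h434 V j)),
      (∀ (s : PQ.T) (z : UAway_h434 V j),
        resUV_h434 V j (aU s z) = a s (resUV_h434 V j z)) ∧
      ∀ (ℓ : ℕ) (hℓ : ℓ.Prime)
        (hℓN' : ¬ ℓ ∣ levelAway_h434 qv j (wilesLevel p t Smin Smin))
        (hℓN : ¬ ℓ ∣ wilesLevel p t Smin (Smin ∪ Finset.univ.image qv))
        (hℓS : ℓ ∉ ((Smin ∪ Finset.univ.image qv : Finset ℕ) : Set ℕ)),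
        aU (PQ.H.π (CuspForm.heckeAlgebra.T hℓ hℓN hℓS)) =
          a' (CuspForm.heckeLocal.π (levelAway_h434 qv j (wilesLevel p t Smin Smin))
            ((Smin ∪ Finset.univ.image qv : Finset ℕ) : Set ℕ) 𝒪 θ'
            (CuspForm.heckeAlgebra.T hℓ hℓN' hℓS)) := by
  classical
  have hp0 : p ≠ 0 := hpF.out.ne_zero
  have hprime : ∀ i, (qv i).Prime := fun i => (hq i).1
  haveI hM : NeZero (bLevel (wilesLevel p t Smin Smin) qv) :=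
    ⟨bLevel_ne_zero p t Smin qv hSp hprime⟩
  have hNS : ∀ q : ℕ, q.Prime → q ∣ levelAway_h434 qv j (wilesLevel p t Smin Smin) →
      q ∈ ((Smin ∪ Finset.univ.image qv : Finset ℕ) : Set ℕ) :=
    fun q hqp hqd => mem_of_dvd_levelAway_h434 p t Smin qv j hpS hSp hq hqp hqd
  have hNQS : ∀ q : ℕ, q.Prime → q ∣ wilesLevel p t Smin (Smin ∪ Finset.univ.image qv) →
      q ∈ ((Smin ∪ Finset.univ.image qv : Finset ℕ) : Set ℕ) :=
    fun q hqp hqd => mem_of_dvd_wilesLevel_union p t Smin qv hpS hSp hqi hq hqp hqd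
  have hMN' : ∀ ℓ : ℕ, ¬ ℓ ∣ levelAway_h434 qv j (wilesLevel p t Smin Smin) →
      ¬ ℓ ∣ bLevel (wilesLevel p t Smin Smin) qv :=
    fun ℓ hℓ hd => hℓ (hd.trans (bLevel_dvd_levelAway_h434 qv j _))
  -- the ring homomorphism at the level `K'`
  have hstU : ∀ (ℓ : ℕ) (hℓ : ℓ.Prime),
      ¬ ℓ ∣ levelAway_h434 qv j (wilesLevel p t Smin Smin) →
      ℓ ∉ ((Smin ∪ Finset.univ.image qv : Finset ℕ) : Set ℕ) → ∀ v ∈ UAway_h434 V j,
        tOpTw (isMid_KAway_h434 p (wilesLevel p t Smin Smin) qv j) 𝒪 h ℓ hℓ v ∈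
          UAway_h434 V j := by
    intro ℓ hℓ hℓN' _ v hv
    rw [mem_UAway_h434, resK_tOpTw_h434 j h ℓ hℓ (hMN' ℓ hℓN')]
    exact hst ℓ hℓ (hMN' ℓ hℓN') _ hv
  obtain ⟨Ψ, hΨ⟩ := exists_heckeAction_KAway_h434 p t Smin qv j hpS hSp hqi hq hh 𝒪
    (UAway_h434 V j) (fun v hv => isParabolicHom_of_mem_UAway_h434 hp0 hpar hv) hstU
  have hinj := resUV_injective_h434 (𝒪 := 𝒪) hp0 V j
  -- `Ψ T_ℓ` induces `a T_ℓ`
  have hΨa : ∀ (ℓ : ℕ) (hℓ : ℓ.Prime)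
      (hℓN' : ¬ ℓ ∣ levelAway_h434 qv j (wilesLevel p t Smin Smin))
      (hℓN : ¬ ℓ ∣ wilesLevel p t Smin (Smin ∪ Finset.univ.image qv))
      (hℓS : ℓ ∉ ((Smin ∪ Finset.univ.image qv : Finset ℕ) : Set ℕ)) (z : UAway_h434 V j),
      resUV_h434 V j (Ψ (CuspForm.heckeAlgebra.T hℓ hℓN' hℓS) z) =
        a (PQ.H.π (CuspForm.heckeAlgebra.T hℓ hℓN hℓS)) (resUV_h434 V j z) := by
    intro ℓ hℓ hℓN' hℓN hℓS z
    apply Subtype.ext
    rw [coe_resUV_h434, hΨ ℓ hℓ hℓN' hℓS z, ha ℓ hℓ hℓN hℓS (resUV_h434 V j z),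
      coe_resUV_h434, resK_tOpTw_h434 j h ℓ hℓ (hMN' ℓ hℓN')]
  -- the action of `T_Q` on `U`
  have hex : ∀ s : PQ.T, ∃ g : Module.End 𝒪 (UAway_h434 V j),
      ∀ z : UAway_h434 V j, resUV_h434 V j (g z) = a s (resUV_h434 V j z) := by
    refine pkg_induction PQ hNQS
      (fun s => ∃ g : Module.End 𝒪 (UAway_h434 V j),
        ∀ z : UAway_h434 V j, resUV_h434 V j (g z) = a s (resUV_h434 V j z)) ?_ ?_ ?_ ?_
    · intro c
      refine ⟨algebraMap 𝒪 _ c, fun z => ?_⟩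
      rw [AlgHom.commutes, Module.algebraMap_end_apply, Module.algebraMap_end_apply, map_smul]
    · rintro x y ⟨g₁, h₁⟩ ⟨g₂, h₂⟩
      refine ⟨g₁ + g₂, fun z => ?_⟩
      rw [LinearMap.add_apply, map_add, h₁, h₂, map_add, LinearMap.add_apply]
    · rintro x y ⟨g₁, h₁⟩ ⟨g₂, h₂⟩
      refine ⟨g₁ * g₂, fun z => ?_⟩
      rw [Module.End.mul_apply, h₁, h₂, map_mul, Module.End.mul_apply]
    · intro ℓ hℓ hℓN hℓS
      have hℓN' : ¬ ℓ ∣ levelAway_h434 qv j (wilesLevel p t Smin Smin) := fun hd => by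
        obtain ⟨q, hqp, hqℓ⟩ : ∃ q : ℕ, q.Prime ∧ q = ℓ := ⟨ℓ, hℓ, rfl⟩
        exact hℓS (hNS ℓ hℓ hd)
      exact ⟨Ψ (CuspForm.heckeAlgebra.T hℓ hℓN' hℓS), fun z => hΨa ℓ hℓ hℓN' hℓN hℓS z⟩
  obtain ⟨aU, haU⟩ := exists_algHom_of_injective_h434 (U := UAway_h434 V j) (V := V)
    a (resUV_h434 V j) hinj hex
  have haUΨ : ∀ (ℓ : ℕ) (hℓ : ℓ.Prime)
      (hℓN' : ¬ ℓ ∣ levelAway_h434 qv j (wilesLevel p t Smin Smin))
      (hℓN : ¬ ℓ ∣ wilesLevel p t Smin (Smin ∪ Finset.univ.image qv))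
      (hℓS : ℓ ∉ ((Smin ∪ Finset.univ.image qv : Finset ℕ) : Set ℕ)),
      aU (PQ.H.π (CuspForm.heckeAlgebra.T hℓ hℓN hℓS)) =
        Ψ (CuspForm.heckeAlgebra.T hℓ hℓN' hℓS) := by
    intro ℓ hℓ hℓN' hℓN hℓS
    refine LinearMap.ext fun z => hinj ?_
    rw [haU, hΨa ℓ hℓ hℓN' hℓN hℓS z]
  -- finiteness
  haveI : Module.Finite 𝒪
      (Additive (KAway_h434 p (wilesLevel p t Smin Smin) qv j) →+ 𝒪) :=
    H324.finite_hom (isMid_KAway_h434 p (wilesLevel p t Smin Smin) qv j) 𝒪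
  haveI : IsNoetherian 𝒪 (Additive (KAway_h434 p (wilesLevel p t Smin Smin) qv j) →+ 𝒪) :=
    isNoetherian_of_isNoetherianRing_of_finite 𝒪 _
  haveI : Module.Finite 𝒪 (UAway_h434 V j) := Module.IsNoetherian.finite 𝒪 _
  -- `GenNil`
  have hgen : H564.GenNil (V := UAway_h434 V j)
      (levelAway_h434 qv j (wilesLevel p t Smin Smin))
      ((Smin ∪ Finset.univ.image qv : Finset ℕ) : Set ℕ) 𝒪 θ' Ψ := by
    refine H564.genNil_of_TU (V := UAway_h434 V j) ?_ ?_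
    · intro ℓ hℓ hℓN' hℓS
      have hℓN : ¬ ℓ ∣ wilesLevel p t Smin (Smin ∪ Finset.univ.image qv) :=
        fun hd => hℓS (hNQS ℓ hℓ hd)
      obtain ⟨c, hc⟩ := residue_surjective (θ' (CuspForm.heckeAlgebra.T hℓ hℓN' hℓS))
      refine ⟨c, hc, ?_⟩
      have hx : PQ.H.π (CuspForm.heckeAlgebra.T hℓ hℓN hℓS) - algebraMap 𝒪 PQ.T c ∈
          maximalIdeal PQ.T := by
        rw [← residue_eq_zero_iff, map_sub, PQ.H.residue_π, sub_eq_zero,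
          ← hθ' ℓ hℓ hℓN' hℓN hℓS, ← hc]
        rfl
      exact isNilpotent_redEnd_sub_algebraMap_h434 (U := UAway_h434 V j) aU hx
        (haUΨ ℓ hℓ hℓN' hℓN hℓS)
    · intro q hqp hqN hqS
      exact absurd (hNS q hqp hqN) hqS
  obtain ⟨a', ha'⟩ := H564.exists_heckeLocal_action (V := UAway_h434 V j) hgen
  refine ⟨aU, a', haU, fun ℓ hℓ hℓN' hℓN hℓS => ?_⟩
  rw [ha', haUΨ ℓ hℓ hℓN' hℓN hℓS]

end Main

end Fermat.Agent.S59.TW.Aut.H434
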