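import Fermat.Agent.S59.TW.Aut.Skel
import Fermat.Agent.S59.MFree.H57.Norm

/-!
# S59 / HARD, cell TW, layer 3 (AUT), leaf CMP, part (T), BETTI side, piece 1 (helper434)

`M_Q = bLevel N₀ qv`, `K_Q = KQ p N₀ qv` (`Γ_H` at all the Taylor–Wiles primes).  For an index `j`:

* `KAway_h434 p N₀ qv j` : the group `K' = Γ₀(M_Q) ∩ Γ_H(Q ∖ q_j)` (`Γ₀` at `q_j`), `K_Q ≤ K'`;
* `kappaAt_h434 : K' →* Δ_j`, `kerSub κ_j = K_Q`;
* `resK_injective_h434` : restriction `X_{K'}(A) → X_{K_Q}(A)` is injective (`A` torsion-free);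
* `exists_resK_eq_norm_h434` : for a primitive root `g` modulo `q_j`, the norm
  `∑_{e < p^{m_j}} ⟨g^e⟩_j x` of every `x ∈ X_{K_Q}(A)` is the restriction of a class of `K'`
  (`res ∘ cor = norm`, `MFree.H57.resCor`).
-/

set_option autoImplicit false
set_option linter.style.haveILetI false

namespace Fermat.Agent.S59.TW.Aut.H434

open CongruenceSubgroup
open Fermat.Agent.S59.Arch Fermat.Agent.S59.TW.H653 Fermat.Agent.S59.MFree
open Fermat.Agent.S59.TW.Aut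
open scoped MatrixGroups

section Defs

variable (p N₀ : ℕ) {r : ℕ} (qv : Fin r → ℕ) (j : Fin r)

/-- The `p^{m_i}`-th powers at all the indices `i ≠ j`. -/
def powSubAway_h434 : Subgroup (∀ i : Fin r, (ZMod (qv i))ˣ) :=
  Subgroup.pi {i | i ≠ j} fun i =>
    (powMonoidHom (p ^ padicValNat p (qv i - 1)) : (ZMod (qv i))ˣ →* (ZMod (qv i))ˣ).range

/-- The subgroup of `(ℤ/M_Q)ˣ` of the units which are `p^{m_i}`-th powers modulo `q_i`, `i ≠ j`. -/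
def HAway_h434 : Subgroup (ZMod (bLevel N₀ qv))ˣ :=
  (powSubAway_h434 p qv j).comap (red N₀ qv)

/-- `K' = Γ₀(M_Q) ∩ Γ_H(Q ∖ q_j)`. -/
def KAway_h434 : Subgroup SL(2, ℤ) := GammaH (bLevel N₀ qv) (HAway_h434 p N₀ qv j)

theorem isMid_KAway_h434 : IsMid (bLevel N₀ qv) (KAway_h434 p N₀ qv j) := isMid_GammaH _ _

theorem mem_powSubAway_h434 {a : ∀ i : Fin r, (ZMod (qv i))ˣ} :
    a ∈ powSubAway_h434 p qv j ↔
      ∀ i, i ≠ j → ∃ u : (ZMod (qv i))ˣ, u ^ (p ^ padicValNat p (qv i - 1)) = a i := by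
  unfold powSubAway_h434
  rw [Subgroup.mem_pi]
  constructor
  · intro h i hi
    obtain ⟨u, hu⟩ := h i hi
    exact ⟨u, hu⟩
  · intro h i hi
    obtain ⟨u, hu⟩ := h i hi
    exact ⟨u, hu⟩

theorem mem_powSub_h434 {a : ∀ i : Fin r, (ZMod (qv i))ˣ} :
    a ∈ powSub p qv ↔ ∀ i, ∃ u : (ZMod (qv i))ˣ, u ^ (p ^ padicValNat p (qv i - 1)) = a i := by
  unfold powSub
  rw [Subgroup.mem_pi]
  constructor
  · intro h i
    obtain ⟨u, hu⟩ := h i (Set.mem_univ i)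
    exact ⟨u, hu⟩
  · intro h i _
    obtain ⟨u, hu⟩ := h i
    exact ⟨u, hu⟩

theorem mem_ker_chi_h434 {u : (ZMod (bLevel N₀ qv))ˣ} :
    u ∈ (chi p N₀ qv).ker ↔ red N₀ qv u ∈ powSub p qv := by
  rw [MonoidHom.mem_ker]
  unfold chi
  rw [MonoidHom.comp_apply, QuotientGroup.mk'_apply, QuotientGroup.eq_one_iff]

theorem ker_chi_le_HAway_h434 : (chi p N₀ qv).ker ≤ HAway_h434 p N₀ qv j := by
  intro u hu
  rw [mem_ker_chi_h434, mem_powSub_h434] at hu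
  show red N₀ qv u ∈ powSubAway_h434 p qv j
  rw [mem_powSubAway_h434]
  exact fun i _ => hu i

theorem KQ_le_KAway_h434 : KQ p N₀ qv ≤ KAway_h434 p N₀ qv j :=
  GammaH_mono (ker_chi_le_HAway_h434 p N₀ qv j)

/-- `Δ_j`, the `p`-Sylow quotient of `(ℤ/q_j)ˣ`. -/
abbrev DAt_h434 : Type :=
  (ZMod (qv j))ˣ ⧸
    (powMonoidHom (p ^ padicValNat p (qv j - 1)) : (ZMod (qv j))ˣ →* (ZMod (qv j))ˣ).range

/-- `(ℤ/M_Q)ˣ → Δ_j`. -/
def chiAt_h434 : (ZMod (bLevel N₀ qv))ˣ →* DAt_h434 p qv j :=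
  (QuotientGroup.mk' _).comp ((Pi.evalMonoidHom _ j).comp (red N₀ qv))

/-- `κ_j : K' → Δ_j`, `γ ↦ d mod q_j`. -/
def kappaAt_h434 : KAway_h434 p N₀ qv j →* DAt_h434 p qv j :=
  (chiAt_h434 p N₀ qv j).comp
    ((dUnit (bLevel N₀ qv)).comp (Subgroup.inclusion (isMid_KAway_h434 p N₀ qv j).le))

theorem chiAt_eq_one_iff_h434 {u : (ZMod (bLevel N₀ qv))ˣ} :
    chiAt_h434 p N₀ qv j u = 1 ↔
      ∃ v : (ZMod (qv j))ˣ, v ^ (p ^ padicValNat p (qv j - 1)) = red N₀ qv u j := by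
  unfold chiAt_h434
  rw [MonoidHom.comp_apply, MonoidHom.comp_apply, QuotientGroup.mk'_apply,
    QuotientGroup.eq_one_iff]
  rfl

theorem mem_KAway_h434 {γ : SL(2, ℤ)} :
    γ ∈ KAway_h434 p N₀ qv j ↔ ∃ hγ : γ ∈ Gamma0 (bLevel N₀ qv),
      ∀ i, i ≠ j → ∃ u : (ZMod (qv i))ˣ,
        u ^ (p ^ padicValNat p (qv i - 1)) = red N₀ qv (dUnit _ ⟨γ, hγ⟩) i := by
  unfold KAway_h434
  rw [mem_GammaH]
  refine exists_congr fun hγ => ?_
  show red N₀ qv _ ∈ powSubAway_h434 p qv j ↔ _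
  rw [mem_powSubAway_h434]

theorem mem_KQ_h434 {γ : SL(2, ℤ)} :
    γ ∈ KQ p N₀ qv ↔ ∃ hγ : γ ∈ Gamma0 (bLevel N₀ qv),
      ∀ i, ∃ u : (ZMod (qv i))ˣ,
        u ^ (p ^ padicValNat p (qv i - 1)) = red N₀ qv (dUnit _ ⟨γ, hγ⟩) i := by
  unfold KQ
  rw [mem_GammaH]
  refine exists_congr fun hγ => ?_
  rw [mem_ker_chi_h434, mem_powSub_h434]

/-- `ker κ_j = K_Q`. -/
theorem kerSub_kappaAt_h434 : kerSub (kappaAt_h434 p N₀ qv j) = KQ p N₀ qv := by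
  ext γ
  rw [mem_kerSub, mem_KQ_h434]
  constructor
  · rintro ⟨hγ, h1⟩
    obtain ⟨hγ0, h2⟩ := (mem_KAway_h434 p N₀ qv j).mp hγ
    refine ⟨hγ0, fun i => ?_⟩
    by_cases hi : i = j
    · subst hi
      exact (chiAt_eq_one_iff_h434 p N₀ qv i).mp h1
    · exact h2 i hi
  · rintro ⟨hγ0, h2⟩
    refine ⟨(mem_KAway_h434 p N₀ qv j).mpr ⟨hγ0, fun i _ => h2 i⟩, ?_⟩
    exact (chiAt_eq_one_iff_h434 p N₀ qv j).mpr (h2 j)

end Defs

/-! ## Restriction from `K'` to `K_Q` is injective -/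

section Inj

variable (p N₀ : ℕ) {r : ℕ} (qv : Fin r → ℕ) (j : Fin r)

/-- `γ ^ (p^{m_j}) ∈ K_Q` for `γ ∈ K'`. -/
theorem pow_mem_KQ_of_mem_KAway_h434 {γ : SL(2, ℤ)} (hγ : γ ∈ KAway_h434 p N₀ qv j) :
    γ ^ (p ^ padicValNat p (qv j - 1)) ∈ KQ p N₀ qv := by
  obtain ⟨hγ0, h2⟩ := (mem_KAway_h434 p N₀ qv j).mp hγ
  rw [mem_KQ_h434]
  refine ⟨Subgroup.pow_mem _ hγ0 _, fun i => ?_⟩
  have h1 : (⟨γ ^ (p ^ padicValNat p (qv j - 1)), Subgroup.pow_mem _ hγ0 _⟩ :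
      Gamma0 (bLevel N₀ qv)) = (⟨γ, hγ0⟩ : Gamma0 (bLevel N₀ qv)) ^
        (p ^ padicValNat p (qv j - 1)) := rfl
  rw [h1, map_pow, map_pow, Pi.pow_apply]
  by_cases hi : i = j
  · subst hi
    exact ⟨_, rfl⟩
  · obtain ⟨u, hu⟩ := h2 i hi
    refine ⟨u ^ (p ^ padicValNat p (qv j - 1)), ?_⟩
    rw [← hu, ← pow_mul, ← pow_mul, mul_comm]

/-- Restriction `X_{K'}(A) → X_{K_Q}(A)` is injective if `A` has no `p`-torsion. -/
theorem resK_injective_h434 (hp : p ≠ 0) {A : Type*} [AddCommGroup A]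
    (htf : ∀ (n : ℕ) (a : A), n ≠ 0 → n • a = 0 → a = 0)
    (z : Additive (KAway_h434 p N₀ qv j) →+ A)
    (hz : resK (KQ_le_KAway_h434 p N₀ qv j) z = 0) : z = 0 := by
  refine AddMonoidHom.ext fun γ' => ?_
  obtain ⟨γ, rfl⟩ : ∃ γ : KAway_h434 p N₀ qv j, Additive.ofMul γ = γ' :=
    ⟨Additive.toMul γ', rfl⟩
  rw [AddMonoidHom.zero_apply]
  apply htf (p ^ padicValNat p (qv j - 1)) _ (pow_ne_zero _ hp)
  rw [← map_nsmul, ← ofMul_pow]
  have h1 := congrArg (fun f : Additive (KQ p N₀ qv) →+ A =>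
    f (Additive.ofMul ⟨(γ : SL(2, ℤ)) ^ (p ^ padicValNat p (qv j - 1)),
      pow_mem_KQ_of_mem_KAway_h434 p N₀ qv j γ.2⟩)) hz
  simp only [resK_apply, AddMonoidHom.zero_apply] at h1
  rw [← h1]
  rfl

end Inj

/-! ## The index set of the norm -/

section Idx

variable (p : ℕ) {q : ℕ}

/-- A primitive root generates. -/
theorem exists_pow_eq_of_orderOf_h434 (hq : q.Prime) {g : (ZMod q)ˣ}
    (hg : orderOf g = q - 1) (u : (ZMod q)ˣ) : ∃ k : ℕ, g ^ k = u := by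
  have : Fact q.Prime := ⟨hq⟩
  have hcard : Nat.card (ZMod q)ˣ = q - 1 := by
    rw [Nat.card_eq_fintype_card, ZMod.card_units]
  have h1 : Subgroup.zpowers g = ⊤ := by
    apply (Subgroup.card_eq_iff_eq_top _).mp
    rw [Nat.card_zpowers, hg, hcard]
  have h2 : u ∈ Subgroup.zpowers g := by
    rw [h1]
    exact Subgroup.mem_top u
  rw [← mem_powers_iff_mem_zpowers] at h2
  exact (Submonoid.mem_powers_iff u g).mp h2

/-- The index map `e ↦ class of g^e`, `Fin (p^m) → (ℤ/q)ˣ / (p^m-th powers)`, `m = v_p(q - 1)`. -/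
def epsAt_h434 (g : (ZMod q)ˣ) (e : Fin (p ^ padicValNat p (q - 1))) :
    (ZMod q)ˣ ⧸ (powMonoidHom (p ^ padicValNat p (q - 1)) : (ZMod q)ˣ →* (ZMod q)ˣ).range :=
  QuotientGroup.mk (g ^ (e : ℕ))

theorem epsAt_injective_h434 [Fact p.Prime] (hq : q.Prime) (g : (ZMod q)ˣ)
    (hg : orderOf g = q - 1) : Function.Injective (epsAt_h434 p g) := by
  intro e e' h
  unfold epsAt_h434 at h
  rw [QuotientGroup.eq] at h
  obtain ⟨u, hu⟩ := h
  rw [powMonoidHom_apply] at hu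
  obtain ⟨k, rfl⟩ := exists_pow_eq_of_orderOf_h434 hq hg u
  have h1 : g ^ (k * p ^ padicValNat p (q - 1) + (e : ℕ)) = g ^ (e' : ℕ) := by
    rw [pow_add, pow_mul, hu]
    simp
  rw [pow_eq_pow_iff_modEq, hg] at h1
  have hdvd : p ^ padicValNat p (q - 1) ∣ q - 1 := pow_padicValNat_dvd
  have h2 : (k * p ^ padicValNat p (q - 1) + (e : ℕ)) ≡ (e' : ℕ)
      [MOD p ^ padicValNat p (q - 1)] := h1.of_dvd hdvd
  have h3 : ((e : ℕ)) ≡ (e' : ℕ) [MOD p ^ padicValNat p (q - 1)] := by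
    have h4 : (k * p ^ padicValNat p (q - 1) + (e : ℕ)) ≡ (e : ℕ)
        [MOD p ^ padicValNat p (q - 1)] := by
      unfold Nat.ModEq
      rw [Nat.mul_add_mod_of_lt e.2]
      exact (Nat.mod_eq_of_lt e.2).symm
    exact h4.symm.trans h2
  apply Fin.ext
  unfold Nat.ModEq at h3
  rw [Nat.mod_eq_of_lt e.2, Nat.mod_eq_of_lt e'.2] at h3
  exact h3

theorem epsAt_surjective_h434 [hp : Fact p.Prime] (hq : q.Prime) (g : (ZMod q)ˣ)
    (hg : orderOf g = q - 1) : Function.Surjective (epsAt_h434 p g) := by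
  intro d
  obtain ⟨a, rfl⟩ := QuotientGroup.mk_surjective d
  obtain ⟨k, hk⟩ := exists_pow_eq_of_orderOf_h434 hq hg a
  have hpos : 0 < p ^ padicValNat p (q - 1) := pow_pos hp.out.pos _
  refine ⟨⟨k % p ^ padicValNat p (q - 1), Nat.mod_lt _ hpos⟩, ?_⟩
  unfold epsAt_h434
  rw [QuotientGroup.eq]
  refine ⟨g ^ (k / p ^ padicValNat p (q - 1)), ?_⟩
  rw [powMonoidHom_apply, ← hk, ← pow_mul, eq_inv_mul_iff_mul_eq, ← pow_add]
  congr 1
  rw [mul_comm]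
  exact Nat.mod_add_div _ _

theorem epsAt_bijective_h434 [Fact p.Prime] (hq : q.Prime) (g : (ZMod q)ˣ)
    (hg : orderOf g = q - 1) : Function.Bijective (epsAt_h434 p g) :=
  ⟨epsAt_injective_h434 p hq g hg, epsAt_surjective_h434 p hq g hg⟩

end Idx

/-! ## The norm is a restriction -/

section Norm

variable (p N₀ : ℕ) {r : ℕ} (qv : Fin r → ℕ) (j : Fin r)

/-- `κ_j` is onto. -/
theorem kappaAt_surjective_h434 [NeZero (bLevel N₀ qv)]
    (hsurj : Function.Surjective (red N₀ qv)) :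
    Function.Surjective (kappaAt_h434 p N₀ qv j) := by
  classical
  intro d
  obtain ⟨a, rfl⟩ := QuotientGroup.mk_surjective d
  obtain ⟨u, hu⟩ := hsurj (Pi.mulSingle j a)
  obtain ⟨γ, hγ⟩ := dUnit_surjective u
  have hmem : (γ : SL(2, ℤ)) ∈ KAway_h434 p N₀ qv j := by
    rw [mem_KAway_h434]
    refine ⟨γ.2, fun i hi => ⟨1, ?_⟩⟩
    rw [one_pow]
    have : (⟨(γ : SL(2, ℤ)), γ.2⟩ : Gamma0 (bLevel N₀ qv)) = γ := rfl
    rw [this, hγ, hu, Pi.mulSingle_eq_of_ne hi]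
  refine ⟨⟨γ, hmem⟩, ?_⟩
  show chiAt_h434 p N₀ qv j (dUnit (bLevel N₀ qv) γ) = _
  rw [hγ]
  show QuotientGroup.mk (red N₀ qv u j) = _
  rw [hu, Pi.mulSingle_eq_same]

/-- The diamond operator of an element of `K'` is the diamond operator of its class in `Δ_j`. -/
theorem chi_dUnit_inv_eq_h434 [NeZero (bLevel N₀ qv)]
    (hsurj : Function.Surjective (red N₀ qv))
    (γ : KAway_h434 p N₀ qv j) (a : (ZMod (qv j))ˣ)
    (ha : kappaAt_h434 p N₀ qv j γ = (QuotientGroup.mk a)⁻¹) :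
    chi p N₀ qv (dUnit (bLevel N₀ qv)
      (Subgroup.inclusion (isMid_KAway_h434 p N₀ qv j).le γ)⁻¹) =
      chi p N₀ qv (liftU N₀ qv (Pi.mulSingle j a)) := by
  classical
  obtain ⟨hγ0, h2⟩ := (mem_KAway_h434 p N₀ qv j).mp γ.2
  set u := dUnit (bLevel N₀ qv) (Subgroup.inclusion (isMid_KAway_h434 p N₀ qv j).le γ) with hu
  have hu' : dUnit (bLevel N₀ qv) ⟨(γ : SL(2, ℤ)), hγ0⟩ = u := rfl
  rw [hu'] at h2
  unfold chi
  rw [MonoidHom.comp_apply, MonoidHom.comp_apply, QuotientGroup.mk'_apply,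
    QuotientGroup.mk'_apply, QuotientGroup.eq, red_liftU N₀ qv (hsurj _), map_inv, map_inv,
    inv_inv, mem_powSub_h434]
  intro i
  by_cases hi : i = j
  · subst hi
    have h3 : kappaAt_h434 p N₀ qv i γ = QuotientGroup.mk (red N₀ qv u i) := rfl
    rw [h3, eq_inv_iff_mul_eq_one, ← QuotientGroup.mk_mul, QuotientGroup.eq_one_iff] at ha
    obtain ⟨v, hv⟩ := ha
    refine ⟨v, ?_⟩
    rw [Pi.mul_apply, Pi.mulSingle_eq_same]
    exact hv
  · obtain ⟨v, hv⟩ := h2 i hi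
    refine ⟨v, ?_⟩
    rw [Pi.mul_apply, Pi.mulSingle_eq_of_ne hi, mul_one]
    exact hv

/-- **The norm is a restriction.**  For a primitive root `g` modulo `q_j`, the norm
`∑_{e < p^{m_j}} ⟨g^e⟩_j x` of a class `x` of `K_Q` is the restriction of a class of `K'`
(namely of `cor x`). -/
theorem exists_resK_eq_norm_h434 [hp : Fact p.Prime] (hN₀ : N₀ ≠ 0)
    (hinj : Function.Injective qv) (hprime : ∀ i, (qv i).Prime)
    {A : Type} [AddCommGroup A] (g : (ZMod (qv j))ˣ) (hg : orderOf g = qv j - 1)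
    (x : Additive (KQ p N₀ qv) →+ A) :
    ∃ z : Additive (KAway_h434 p N₀ qv j) →+ A,
      resK (KQ_le_KAway_h434 p N₀ qv j) z =
        ∑ e : Fin (p ^ padicValNat p (qv j - 1)),
          diamondU (isMid_KQ p N₀ qv) (liftU N₀ qv (Pi.mulSingle j (g ^ (e : ℕ)))) x := by
  classical
  haveI hM : NeZero (bLevel N₀ qv) :=
    ⟨Nat.mul_ne_zero hN₀ (Finset.prod_ne_zero_iff.mpr fun i _ => (hprime i).ne_zero)⟩
  have hsurj := red_surjective N₀ qv hN₀ hinj hprime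
  haveI : Fact (qv j).Prime := ⟨hprime j⟩
  letI : Fintype (DAt_h434 p qv j) := Fintype.ofFinite _
  set κ := kappaAt_h434 p N₀ qv j with hκ
  have hκs := kappaAt_surjective_h434 p N₀ qv j hsurj
  set s : DAt_h434 p qv j → KAway_h434 p N₀ qv j := Function.surjInv hκs with hs
  have hss : ∀ d, κ (s d) = d := Function.surjInv_eq hκs
  have hle : kerSub κ ≤ KQ p N₀ qv := le_of_eq (kerSub_kappaAt_h434 p N₀ qv j)
  have hge : KQ p N₀ qv ≤ kerSub κ := le_of_eq (kerSub_kappaAt_h434 p N₀ qv j).symm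
  set x' : Additive (kerSub κ) →+ A := resK hle x with hx'
  refine ⟨cor κ x', ?_⟩
  have hrc := H57.resCor.{0} (KAway_h434 p N₀ qv j) (DAt_h434 p qv j) κ s hss A x'
  refine AddMonoidHom.ext fun h' => ?_
  obtain ⟨h, rfl⟩ : ∃ h : KQ p N₀ qv, Additive.ofMul h = h' := ⟨Additive.toMul h', rfl⟩
  have h1 : resK (KQ_le_KAway_h434 p N₀ qv j) (cor κ x') (Additive.ofMul h) =
      res κ (cor κ x') (Additive.ofMul (Subgroup.inclusion hge h)) := rfl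
  rw [h1, hrc, AddMonoidHom.finsetSum_apply, AddMonoidHom.finsetSum_apply]
  -- reindex
  have hε := epsAt_bijective_h434 p (hprime j) g hg
  set ε : Fin (p ^ padicValNat p (qv j - 1)) ≃ DAt_h434 p qv j :=
    (Equiv.ofBijective _ hε).trans (Equiv.inv _) with hεdef
  rw [← Equiv.sum_comp ε]
  refine Finset.sum_congr rfl fun e _ => ?_
  have hεe : ε e = (QuotientGroup.mk (g ^ (e : ℕ)))⁻¹ := rfl
  have hchi := chi_dUnit_inv_eq_h434 p N₀ qv j hsurj (s (ε e)) (g ^ (e : ℕ))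
    (by rw [hss, hεe])
  rw [← diamondU_eq_of_chi p N₀ qv hchi x, ← diamond_eq_diamondU]
  rw [conjAct_apply, diamond_apply, hx', resK_apply]
  congr 2
  apply Subtype.ext
  simp only [Subgroup.coe_inclusion, conjKer_coe, conjK_coe, InvMemClass.coe_inv, inv_inv]

end Norm

end Fermat.Agent.S59.TW.Aut.H434
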