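import Fermat.Agent.S59.TW.H788.ResGal

/-!
# S59 / row 37, cell TW, layer 3, leaf CMP, part (T): the Galois core  (helper434)

Two Galois representations `ρ₁` over `T₁`, `ρ₂` over `T₂` and local homomorphisms
`f₁ : T₁ → B`, `f₂ : T₂ → B` into a Noetherian local ring such that the traces of Frobenius
correspond at almost all primes.  If `ρ₂(σ)` is unipotent (`charpoly = (X - 1)²`, e.g. `σ` in an
inertia group at a prime `q ∥ N₂`: frozen S34) and `charpoly ρ₁(σ) = (X - w)(X - w')`, `w w' = 1`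
(INO), then `(f₁ w - 1)² = 0`.  No rigidity (Carayol) is needed: only Chebotarev + continuity
(`TW.H788.map_trace_eq_of_frob`).

Use: `T₁ = T_Q` (level `N₀ ∏ q_i²`), `T₂` = the Hecke ring of level `N₀ q_j ∏_{i ≠ j} q_i²`,
`B = T_Q / 𝔭` for an associated prime `𝔭` of `M_Q / (⟨u⟩_j - 1) M_Q`; conclusion `w - 1 ∈ 𝔭`.
-/

set_option autoImplicit false

open Polynomial IsLocalRing

namespace Fermat.Agent.S59.TW.Aut.H434

open Fermat.Agent.S59.Arch Fermat.Agent.S59.TW.H959 Fermat.Agent.S59.TW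

/-- The trace from a factored characteristic polynomial in rank `2`. -/
theorem trace_eq_add_of_charpoly_h434 {A : Type} [CommRing A] [IsLocalRing A]
    (ρ : GaloisRepAdic A) (σ : GQ) (w w' : A)
    (hw : LinearMap.charpoly (ρ.ρ σ) = (X - C w) * (X - C w')) : ρ.trace σ = w + w' := by
  refine Fermat.Agent.S59.H765.trace_eq_of_charpoly ρ.finrank_eq _ (w + w') (w * w') ?_
  rw [hw, C_add, C_mul]
  ring

/-- The trace of a unipotent element in rank `2`. -/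
theorem trace_eq_two_of_charpoly_h434 {A : Type} [CommRing A] [IsLocalRing A]
    (ρ : GaloisRepAdic A) (σ : GQ)
    (hσ : LinearMap.charpoly (ρ.ρ σ) = (X - 1) ^ 2) : ρ.trace σ = 2 := by
  refine Fermat.Agent.S59.H765.trace_eq_of_charpoly ρ.finrank_eq _ 2 1 ?_
  rw [hσ]
  have h2 : (C (2 : A) : A[X]) = 2 := by
    rw [show (2 : A) = 1 + 1 by norm_num, C_add, C_1]; norm_num
  rw [h2, C_1]
  ring

/-- **Galois core of CMP-T.** -/
theorem sq_sub_one_eq_zero_of_unipotent_h434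
    {T₁ T₂ B : Type} [CommRing T₁] [IsLocalRing T₁] [CommRing T₂] [IsLocalRing T₂]
    [CommRing B] [IsLocalRing B] [IsNoetherianRing B]
    (f₁ : T₁ →+* B) (hf₁ : IsLocalHom f₁) (f₂ : T₂ →+* B) (hf₂ : IsLocalHom f₂)
    (ρ₁ : GaloisRepAdic T₁) (ρ₂ : GaloisRepAdic T₂) (F : Finset ℕ)
    (htr : ∀ ℓ : ℕ, ℓ.Prime → ℓ ∉ F → ∀ A : ValuationSubring Qb, A.LiesOverPrime ℓ →
      ∀ τ : GQ, A.IsFrobeniusAt τ ℓ → f₁ (ρ₁.trace τ) = f₂ (ρ₂.trace τ))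
    (σ : GQ) (hσ : LinearMap.charpoly (ρ₂.ρ σ) = (X - 1) ^ 2)
    (w w' : T₁) (hww : w * w' = 1)
    (hw : LinearMap.charpoly (ρ₁.ρ σ) = (X - C w) * (X - C w')) :
    (f₁ w - 1) ^ 2 = 0 := by
  have h1 : f₁ (ρ₁.trace σ) = (ρ₂.baseChangeAlong f₂ hf₂).trace σ := by
    refine Fermat.Agent.S59.TW.H788.map_trace_eq_of_frob f₁ hf₁ ρ₁ _ F ?_ σ
    intro ℓ hℓ hℓF A hA τ hτ
    rw [Fermat.Agent.S59.TW.H788.trace_baseChangeAlong]
    exact htr ℓ hℓ hℓF A hA τ hτ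
  rw [Fermat.Agent.S59.TW.H788.trace_baseChangeAlong, trace_eq_add_of_charpoly_h434 ρ₁ σ w w' hw,
    trace_eq_two_of_charpoly_h434 ρ₂ σ hσ, map_add, map_ofNat] at h1
  have h2 : f₁ w * f₁ w' = 1 := by rw [← map_mul, hww, map_one]
  have h3 : f₁ w' = 2 - f₁ w := by rw [← h1]; ring
  rw [h3] at h2
  calc (f₁ w - 1) ^ 2 = -(f₁ w * (2 - f₁ w)) + 1 := by ring
    _ = 0 := by rw [h2]; ring

/-- In a domain: `f₁ w = 1`. -/
theorem map_eq_one_of_unipotent_h434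
    {T₁ T₂ B : Type} [CommRing T₁] [IsLocalRing T₁] [CommRing T₂] [IsLocalRing T₂]
    [CommRing B] [IsLocalRing B] [IsNoetherianRing B] [IsDomain B]
    (f₁ : T₁ →+* B) (hf₁ : IsLocalHom f₁) (f₂ : T₂ →+* B) (hf₂ : IsLocalHom f₂)
    (ρ₁ : GaloisRepAdic T₁) (ρ₂ : GaloisRepAdic T₂) (F : Finset ℕ)
    (htr : ∀ ℓ : ℕ, ℓ.Prime → ℓ ∉ F → ∀ A : ValuationSubring Qb, A.LiesOverPrime ℓ →
      ∀ τ : GQ, A.IsFrobeniusAt τ ℓ → f₁ (ρ₁.trace τ) = f₂ (ρ₂.trace τ))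
    (σ : GQ) (hσ : LinearMap.charpoly (ρ₂.ρ σ) = (X - 1) ^ 2)
    (w w' : T₁) (hww : w * w' = 1)
    (hw : LinearMap.charpoly (ρ₁.ρ σ) = (X - C w) * (X - C w')) :
    f₁ w = 1 := by
  have h := sq_sub_one_eq_zero_of_unipotent_h434 f₁ hf₁ f₂ hf₂ ρ₁ ρ₂ F htr σ hσ w w' hww hw
  exact sub_eq_zero.mp (pow_eq_zero_iff (two_ne_zero) |>.mp h)

end Fermat.Agent.S59.TW.Aut.H434
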